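/-
S60 wiring (helper55): semistable modularity from the shapes of
S51 (3 or 5 irreducible), S52 (3-5 switch), S50 (residual modularity at 3),
S59 (modularity lifting at 3 and 5), plus one explicit glue hypothesis `Glue9`
(removing `9 ∣ M` from the residual level at 3), which is NOT among the frozen statements.

Everything here is sorry-free and depends only on Mathlib + Prelude.
-/
import Mathlib
import Fermat.Prelude.Def_FLTPrelim_FreyPackage
import Fermat.Prelude.Def_FLTPrelim_GaloisRep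
import Fermat.Prelude.Def_FLTPrelim_Modularity
import Fermat.Prelude.Def_FLTPrelim_ModularRep
import Fermat.Prelude.Def_FLTPrelim_Ramification
import Fermat.Prelude.Def_WeierstrassCurve_Mlc1RowStatement

set_option autoImplicit false

open WeierstrassCurve WeierstrassCurve.Affine WeierstrassCurve.Affine.Point
open scoped WeierstrassCurve.Affine

namespace Fermat.Agent.S60W

/-- Shape of S51. -/
def Shape51 : Prop :=
  ∀ W : WeierstrassCurve ℤ, W.Δ ≠ 0 → W.IsSemistableModel →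
    W.ModRepIsIrreducible 3 ∨ W.ModRepIsIrreducible 5

/-- Shape of S52. -/
def Shape52 : Prop :=
  ∀ W : WeierstrassCurve ℤ, W.Δ ≠ 0 → W.IsSemistableModel → W.ModRepIsIrreducible 5 →
    ∃ W' : WeierstrassCurve ℤ, W'.Δ ≠ 0 ∧ W'.IsSemistableModel ∧ W'.ModRepIsIrreducible 3 ∧
      ∀ ℓ : ℕ, ℓ.Prime → W.IsGoodPrimeFor ℓ → W'.IsGoodPrimeFor ℓ → ℓ ≠ 5 →
        (5 : ℤ) ∣ (W'.apOfModel ℓ - W.apOfModel ℓ)

/-- The inertia clause of S50. -/
def NoInertiaFixedThreeTorsion (W : WeierstrassCurve ℤ) : Prop :=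
  ∀ A : ValuationSubring (AlgebraicClosure ℚ), A.LiesOverPrime 3 →
    ∀ x : Submodule.torsionBy ℤ
        ((W.map (Int.castRingHom ℚ))⁄(AlgebraicClosure ℚ)).Point (3 : ℕ),
      (∀ σ ∈ A.inertiaSubgroupIn ℚ, σ • x = x) → x = 0

/-- Shape of S50. -/
def Shape50 : Prop :=
  ∀ W : WeierstrassCurve ℤ, W.Δ ≠ 0 → W.IsSemistableModel → W.ModRepIsIrreducible 3 →
    ∃ M : ℕ, 0 < M ∧ W.IsResiduallyModularOfLevel 3 M ∧
      (∀ q : ℕ, q.Prime → q ≠ 3 → ¬ q ^ 3 ∣ M) ∧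
      (3 ^ 2 ∣ M → NoInertiaFixedThreeTorsion W)

/-- Shape of S59. -/
def Shape59 : Prop :=
  ∀ (p : ℕ), p = 3 ∨ p = 5 →
    ∀ W : WeierstrassCurve ℤ, W.Δ ≠ 0 → W.IsSemistableModel → W.ModRepIsIrreducible p →
    ∀ (M₀ : ℕ) [NeZero M₀], W.IsResiduallyModularOfLevel p M₀ →
    ¬ p ^ 2 ∣ M₀ →
    (∀ q : ℕ, q.Prime → q ≠ p → ¬ q ^ 3 ∣ M₀) →
    Mlc1IsModularModelOfExactConductorLevel W

/-- What S59 needs at `p = 3`: a residual level not divisible by `9`, cube-free away from `3`. -/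
def Shape50Good : Prop :=
  ∀ W : WeierstrassCurve ℤ, W.Δ ≠ 0 → W.IsSemistableModel → W.ModRepIsIrreducible 3 →
    ∃ M : ℕ, 0 < M ∧ W.IsResiduallyModularOfLevel 3 M ∧
      (∀ q : ℕ, q.Prime → q ≠ 3 → ¬ q ^ 3 ∣ M) ∧ ¬ 3 ^ 2 ∣ M

/-- The glue that is missing between S50 and S59 (level optimisation at `3` when `9 ∣ M`). -/
def Glue9 : Prop :=
  ∀ W : WeierstrassCurve ℤ, W.Δ ≠ 0 → W.IsSemistableModel → W.ModRepIsIrreducible 3 →
    ∀ M : ℕ, 0 < M → W.IsResiduallyModularOfLevel 3 M →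
      (∀ q : ℕ, q.Prime → q ≠ 3 → ¬ q ^ 3 ∣ M) → 3 ^ 2 ∣ M →
      NoInertiaFixedThreeTorsion W →
      ∃ M' : ℕ, 0 < M' ∧ W.IsResiduallyModularOfLevel 3 M' ∧
        (∀ q : ℕ, q.Prime → q ≠ 3 → ¬ q ^ 3 ∣ M') ∧ ¬ 3 ^ 2 ∣ M'

theorem shape50Good_of_glue (h50 : Shape50) (hg : Glue9) : Shape50Good := by
  intro W hΔ hW h3
  obtain ⟨M, hM, hres, hcube, hin⟩ := h50 W hΔ hW h3
  by_cases h9 : 3 ^ 2 ∣ M
  · exact hg W hΔ hW h3 M hM hres hcube h9 (hin h9)
  · exact ⟨M, hM, hres, hcube, h9⟩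

/-- Exact conductor level modularity gives modularity over `ℚ`. -/
theorem isModular_of_mlc1 {W : WeierstrassCurve ℤ}
    (h : Mlc1IsModularModelOfExactConductorLevel W) :
    (W.map (Int.castRingHom ℚ)).IsModular := by
  obtain ⟨N, hN, -, -, hmod⟩ := h
  exact ⟨W, ⟨1, one_smul _ _⟩, N, hN, hmod⟩

/-- The `p = 3` branch. -/
theorem mlc1_of_irreducible_three (h50 : Shape50Good) (h59 : Shape59)
    (W : WeierstrassCurve ℤ) (hΔ : W.Δ ≠ 0) (hW : W.IsSemistableModel)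
    (h3 : W.ModRepIsIrreducible 3) : Mlc1IsModularModelOfExactConductorLevel W := by
  obtain ⟨M, hM, hres, hcube, h9⟩ := h50 W hΔ hW h3
  have : NeZero M := ⟨hM.ne'⟩
  exact h59 3 (Or.inl rfl) W hΔ hW h3 M hres h9 hcube

/-- Transfer of residual modularity at `5` along a congruence of `a_ℓ` mod `5` from a curve that is
modular of exact conductor level. -/
theorem isResiduallyModularOfLevel_five_of_switch {W W' : WeierstrassCurve ℤ}
    (hcong : ∀ ℓ : ℕ, ℓ.Prime → W.IsGoodPrimeFor ℓ → W'.IsGoodPrimeFor ℓ → ℓ ≠ 5 →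
      (5 : ℤ) ∣ (W'.apOfModel ℓ - W.apOfModel ℓ))
    {N : ℕ} (hN : ∀ q : ℕ, q.Prime → (q ∣ N ↔ (q : ℤ) ∣ W'.Δ))
    (hmod : W'.IsModularModelOfLevel N) : W.IsResiduallyModularOfLevel 5 N := by
  obtain ⟨f, hf, hfa⟩ := hmod
  obtain ⟨𝔪, h𝔪, h5⟩ := FLTPrelim.exists_maximalIdeal_natCast_prime_mem (p := 5) (by norm_num)
  refine ⟨f, 𝔪, hf, h𝔪, h5, ?_⟩
  intro ℓ hℓ hgood hℓN hℓ5
  have hgood' : W'.IsGoodPrimeFor ℓ := fun hdvd => hℓN ((hN ℓ hℓ).mpr hdvd)
  refine ⟨((W'.apOfModel ℓ : ℤ) : integralClosure ℤ ℂ), ?_, ?_⟩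
  · rw [hfa ℓ hℓ hgood' hℓN]
    simp
  · obtain ⟨c, hc⟩ := hcong ℓ hℓ hgood hgood' hℓ5
    have : ((W'.apOfModel ℓ : ℤ) : integralClosure ℤ ℂ) - ((W.apOfModel ℓ : ℤ) : integralClosure ℤ ℂ)
        = ((5 : ℕ) : integralClosure ℤ ℂ) * ((c : ℤ) : integralClosure ℤ ℂ) := by
      rw [← Int.cast_sub, hc]
      push_cast
      ring
    rw [this]
    exact Ideal.mul_mem_right _ _ h5

/-- Squarefree numbers are not divisible by a square of a prime, nor by a cube. -/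
theorem not_sq_dvd_of_squarefree {N q : ℕ} (hN : Squarefree N) (hq : q.Prime) : ¬ q ^ 2 ∣ N := by
  intro h
  have := hN q (by rw [← sq]; exact h)
  exact hq.one_lt.ne' (Nat.isUnit_iff.mp this)

theorem not_cube_dvd_of_squarefree {N q : ℕ} (hN : Squarefree N) (hq : q.Prime) : ¬ q ^ 3 ∣ N :=
  fun h => not_sq_dvd_of_squarefree hN hq ((pow_dvd_pow q (by norm_num)).trans h)

/-- The `p = 5` branch. -/
theorem mlc1_of_irreducible_five (h52 : Shape52) (h50 : Shape50Good) (h59 : Shape59)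
    (W : WeierstrassCurve ℤ) (hΔ : W.Δ ≠ 0) (hW : W.IsSemistableModel)
    (h5 : W.ModRepIsIrreducible 5) : Mlc1IsModularModelOfExactConductorLevel W := by
  obtain ⟨W', hΔ', hW', h3', hcong⟩ := h52 W hΔ hW h5
  obtain ⟨N, hN, hsq, hNiff, hmod⟩ := mlc1_of_irreducible_three h50 h59 W' hΔ' hW' h3'
  have : NeZero N := ⟨hN.ne'⟩
  have hres : W.IsResiduallyModularOfLevel 5 N :=
    isResiduallyModularOfLevel_five_of_switch hcong hNiff hmod
  exact h59 5 (Or.inr rfl) W hΔ hW h5 N hres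
    (not_sq_dvd_of_squarefree hsq (by norm_num))
    (fun q hq _ => not_cube_dvd_of_squarefree hsq hq)

/-- Exact conductor level modularity of every semistable curve. -/
theorem mlc1_of_shapes (h51 : Shape51) (h52 : Shape52) (h50 : Shape50Good) (h59 : Shape59)
    (W : WeierstrassCurve ℤ) (hΔ : W.Δ ≠ 0) (hW : W.IsSemistableModel) :
    Mlc1IsModularModelOfExactConductorLevel W := by
  rcases h51 W hΔ hW with h3 | h5
  · exact mlc1_of_irreducible_three h50 h59 W hΔ hW h3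
  · exact mlc1_of_irreducible_five h52 h50 h59 W hΔ hW h5

/-- S60 from the shapes (with the strengthened S50). -/
theorem s60_of_shapes (h51 : Shape51) (h52 : Shape52) (h50 : Shape50Good) (h59 : Shape59)
    (W : WeierstrassCurve ℤ) (hΔ : W.Δ ≠ 0) (hW : W.IsSemistableModel) :
    (W.map (Int.castRingHom ℚ)).IsModular :=
  isModular_of_mlc1 (mlc1_of_shapes h51 h52 h50 h59 W hΔ hW)

/-- S60 from the frozen shapes S51, S52, S50, S59 and the glue `Glue9`. -/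
theorem s60_of_shapes_glue (h51 : Shape51) (h52 : Shape52) (h50 : Shape50) (hg : Glue9)
    (h59 : Shape59)
    (W : WeierstrassCurve ℤ) (hΔ : W.Δ ≠ 0) (hW : W.IsSemistableModel) :
    (W.map (Int.castRingHom ℚ)).IsModular :=
  s60_of_shapes h51 h52 (shape50Good_of_glue h50 hg) h59 W hΔ hW

end Fermat.Agent.S60W
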